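import Fermat.Agent.S54.Frob
import Fermat.Agent.GES.RedGal
import Fermat.Agent.GES.Defs

set_option autoImplicit false

/-!
# S37 / Frob : Frobenius elements and inertia   (owner: helper12)
-/

noncomputable section

namespace Fermat.Agent.S37

open Fermat.Agent.S24 (Kb)
open Fermat.Agent.GES (GQ)

theorem exists_frob (A : ValuationSubring Kb) {l : ℕ} (hl : l.Prime) (hA : A.LiesOverPrime l) :
    ∃ s : GQ, A.IsFrobeniusAt s l :=
  Fermat.Agent.S54.exists_isFrobeniusAt A hl hA

theorem mem_inertia_iff (A : ValuationSubring Kb) (g : A.decompositionSubgroup ℚ) :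
    g ∈ A.inertiaSubgroup ℚ ↔ ∀ x : IsLocalRing.ResidueField A, g • x = x := by
  unfold ValuationSubring.inertiaSubgroup
  rw [MonoidHom.mem_ker]
  constructor
  · intro h x
    have := congrArg (fun e : RingAut (IsLocalRing.ResidueField A) => e x) h
    exact this
  · intro h
    ext x
    exact h x

/-- two Frobenius elements differ by inertia. -/
theorem frob_inv_mul_mem (A : ValuationSubring Kb) {l : ℕ} {s s' : GQ} (hs : A.IsFrobeniusAt s l)
    (hs' : A.IsFrobeniusAt s' l) : s⁻¹ * s' ∈ A.inertiaSubgroupIn ℚ := by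
  refine ⟨(⟨s, hs.mem_decompositionSubgroup⟩ : A.decompositionSubgroup ℚ)⁻¹ *
    ⟨s', hs'.mem_decompositionSubgroup⟩, ?_, rfl⟩
  rw [SetLike.mem_coe, mem_inertia_iff]
  intro x
  rw [mul_smul, hs'.smul_residue_eq, ← hs.smul_residue_eq, inv_smul_smul]

/-- the decomposition group normalises inertia. -/
theorem conj_mem_inertia (A : ValuationSubring Kb) {g τ : GQ} (hg : g ∈ A.decompositionSubgroup ℚ)
    (hτ : τ ∈ A.inertiaSubgroupIn ℚ) : g * τ * g⁻¹ ∈ A.inertiaSubgroupIn ℚ := by
  obtain ⟨x, hx, rfl⟩ := hτ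
  have hn : (A.inertiaSubgroup ℚ).Normal := by
    unfold ValuationSubring.inertiaSubgroup
    exact MonoidHom.normal_ker _
  exact ⟨(⟨g, hg⟩ : A.decompositionSubgroup ℚ) * x * (⟨g, hg⟩ : A.decompositionSubgroup ℚ)⁻¹,
    hn.conj_mem x hx _, rfl⟩

end Fermat.Agent.S37
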