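import Fermat.Agent.S17.WMW.Data
import Fermat.Agent.S34.BR.Sep
import Fermat.Agent.NV.Canon
import Fermat.Agent.GES.Level
import Fermat.Agent.S54.Frob

set_option autoImplicit false

/-!
# S37 / Orb : the Galois action on `J₀(N)(ℚ̄)` is smooth   (owner: helper12)
-/

noncomputable section

namespace Fermat.Agent.S37

open AlgebraicCurve ModularCurve
open Fermat.Agent.S24 (Kb FN)
open Fermat.Agent.GES (GQ galF)
open Fermat.Agent.S17.WMW (aG)

attribute [local instance] Fermat.Agent.S54.isAlgebraic_Lb Fermat.Agent.S54.isAlgClosure_Lb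
  Fermat.Agent.S54.isGalois_Lb

/-- every place of `F_N` is defined over a number field. -/
theorem exists_level_place (N : ℕ) [NeZero N] (v : Place Kb (FN N)) :
    ∃ L : IntermediateField ℚ Kb, FiniteDimensional ℚ L ∧
      ∀ σ : GQ, (∀ x ∈ L, σ x = x) → aG N σ • v = v := by
  classical
  have hFF := Fermat.Agent.S24.isFF1_FN N
  obtain ⟨z₁, hz₁0, hz₁, -⟩ := Fermat.Agent.S34.exists_sep_place hFF ∅ v (by simp)
  have hfin : {u : Place Kb (FN N) | 0 < u.ord z₁}.Finite := by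
    refine (Fermat.Agent.NV.Canon.finite_ord_neg hFF z₁⁻¹).subset ?_
    intro u hu
    rw [Set.mem_ofPred_eq] at hu ⊢
    rw [Place.ord_inv]
    omega
  set W : Finset (Place Kb (FN N)) := hfin.toFinset with hW
  have hmemW : ∀ u : Place Kb (FN N), u ∈ W ↔ 0 < u.ord z₁ := fun u => by
    rw [hW, Set.Finite.mem_toFinset, Set.mem_ofPred_eq]
  obtain ⟨z₂, hz₂0, hz₂, hz₂'⟩ :=
    Fermat.Agent.S34.exists_sep_place hFF (W.erase v) v (Finset.notMem_erase v W)
  obtain ⟨L₁, hL₁, h₁⟩ := Fermat.Agent.GES.exists_level_F N z₁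
  obtain ⟨L₂, hL₂, h₂⟩ := Fermat.Agent.GES.exists_level_F N z₂
  refine ⟨L₁ ⊔ L₂, IntermediateField.finiteDimensional_sup L₁ L₂, fun σ hσ => ?_⟩
  have e₁ : aG N σ • z₁ = z₁ := h₁ σ fun x hx => hσ x (le_sup_left (a := L₁) hx)
  have e₂ : aG N σ • z₂ = z₂ := h₂ σ fun x hx => hσ x (le_sup_right (b := L₂) hx)
  have o₁ := SemilinearAut.ord_smul (aG N σ) v z₁
  have o₂ := SemilinearAut.ord_smul (aG N σ) v z₂
  rw [e₁] at o₁
  rw [e₂] at o₂
  by_contra hne
  have hmem : aG N σ • v ∈ W.erase v := by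
    rw [Finset.mem_erase]
    exact ⟨hne, (hmemW _).2 (by rw [o₁]; exact hz₁)⟩
  have := hz₂' _ hmem
  omega

/-- every divisor of `F_N` is defined over a number field. -/
theorem exists_level_divisor (N : ℕ) [NeZero N] (D : Divisor Kb (FN N)) :
    ∃ L : IntermediateField ℚ Kb, FiniteDimensional ℚ L ∧
      ∀ σ : GQ, (∀ x ∈ L, σ x = x) → aG N σ • D = D := by
  induction D using Finsupp.induction_linear with
  | zero => exact ⟨⊥, inferInstance, fun σ _ => smul_zero _⟩
  | add D₁ D₂ h₁ h₂ =>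
    obtain ⟨L₁, hL₁, h₁⟩ := h₁
    obtain ⟨L₂, hL₂, h₂⟩ := h₂
    refine ⟨L₁ ⊔ L₂, IntermediateField.finiteDimensional_sup L₁ L₂, fun σ hσ => ?_⟩
    rw [smul_add, h₁ σ fun x hx => hσ x (le_sup_left (a := L₁) hx),
      h₂ σ fun x hx => hσ x (le_sup_right (b := L₂) hx)]
  | single v n =>
    obtain ⟨L, hL, h⟩ := exists_level_place N v
    exact ⟨L, hL, fun σ hσ => by rw [SemilinearAut.smul_single, h σ hσ]⟩

/-- every point of `J₀(N)` is defined over a number field. -/
theorem exists_level_J (N : ℕ) [NeZero N] (y : JZero N) :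
    ∃ L : IntermediateField ℚ Kb, FiniteDimensional ℚ L ∧
      ∀ σ : GQ, σ ∈ L.fixingSubgroup → σ • y = y := by
  obtain ⟨D, rfl⟩ := Pic0.mk_surjective y
  obtain ⟨L, hL, h⟩ := exists_level_divisor N (D : Divisor Kb (FN N))
  refine ⟨L, hL, fun σ hσ => ?_⟩
  rw [IntermediateField.mem_fixingSubgroup_iff] at hσ
  rw [galois_smul_pic0_def, SemilinearAut.pic0_smul_mk]
  congr 1
  exact Subtype.ext (h σ hσ)

/-- every point of `J₀(N)` is fixed by a normal subgroup of finite index. -/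
theorem exists_normal_fix (N : ℕ) [NeZero N] (y : JZero N) :
    ∃ U : Subgroup GQ, U.Normal ∧ U.FiniteIndex ∧ ∀ σ ∈ U, σ • y = y := by
  obtain ⟨L, hL, h⟩ := exists_level_J N y
  have hidx : L.fixingSubgroup.FiniteIndex := by
    refine ⟨?_⟩
    have e := IntermediateField.finrank_eq_fixingSubgroup_index (F := ℚ) (E' := Kb) L
    rw [← e]
    exact Module.finrank_pos.ne'
  exact ⟨L.fixingSubgroup.normalCore, Subgroup.normalCore_normal _, inferInstance,
    fun σ hσ => h σ (Subgroup.normalCore_le _ hσ)⟩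

/-- finite orbits. -/
theorem exists_pow_smul_eq (N : ℕ) [NeZero N] (y : JZero N) (σ : GQ) :
    ∃ k : ℕ, 0 < k ∧ σ ^ k • y = y := by
  obtain ⟨U, hU, hfi, h⟩ := exists_normal_fix N y
  exact ⟨U.index, Nat.pos_of_ne_zero hfi.index_ne_zero, h _ (Subgroup.pow_index_mem U σ)⟩

end Fermat.Agent.S37
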