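import Fermat.Agent.S17.WMW.Data
import Fermat.Agent.S17.WMW.Inert

set_option autoImplicit false
set_option synthInstance.maxHeartbeats 400000

/-!
# S37 / Unr : division points of inertia-invariant points are inertia-invariant   (owner: helper12)

`l ∤ N m`, `τ` in the inertia group of a place `A` over `l`, `τ y = y`, `m z = y`  ⟹  `τ z = z`.
Twin of `S17/WMW/Data.lean` + `Inert.lean` (`2 → m`, "invariant under all `τ`" → "invariant under this `τ`").
-/

noncomputable section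

namespace Fermat.Agent.S37

open AlgebraicCurve ModularCurve
open Fermat.Agent.S24 (Kb FN)
open Fermat.Agent.GES
open Fermat.Agent.S18 (IntA SmallA cc_gen)
open Fermat.Agent.S17.WMW (aG kd_mk_eq_zero kd_ord_galU exists_invariant_place)

/-- `ord (τ f / f) = m (τ B - B)` if `div f = m B - A₀`, `τ A₀ = A₀`. -/
theorem unr_ord_quot {N : ℕ} {m : ℕ} {f : (FN N)ˣ} (A₀ B : Divisor Kb (FN N)) (τ : GQ)
    (hA : aG N τ • A₀ = A₀)
    (hf : ∀ v : Place Kb (FN N), v.ord ((f : (FN N)ˣ) : FN N) = m * B v - A₀ v)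
    (v : Place Kb (FN N)) :
    v.ord ((galU N τ f / f : (FN N)ˣ) : FN N) = m * ((aG N τ • B - B : Divisor Kb (FN N)) v) := by
  rw [Units.val_div_eq_div_val, Fermat.Agent.S24.ord_div v (Units.ne_zero _) f.ne_zero,
    kd_ord_galU, hf, hf]
  have h1 : A₀ ((aG N τ)⁻¹ • v) = A₀ v := by
    rw [← SemilinearAut.divisor_smul_apply, hA]
  rw [h1, Finsupp.coe_sub, Pi.sub_apply, SemilinearAut.divisor_smul_apply]
  ring

/-- `τ f / f` is an `m`-th power for `τ` in inertia, as soon as `m ∣ div (τ f / f)`. -/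
theorem unr_pow (N l m : ℕ) [NeZero N] [NeZero m] (hl : l.Prime) (h : ¬ l ∣ N * m)
    (A : ValuationSubring Kb) (hA : A.LiesOverPrime l) (τ : GQ) (hτ : τ ∈ A.inertiaSubgroupIn ℚ)
    (f : (FN N)ˣ) (hf : galU N τ f / f ∈ DN N m) : ∃ w : (FN N)ˣ, w ^ m = galU N τ f / f := by
  have hℓN : ¬ l ∣ N := fun h' => h (Dvd.dvd.mul_right h' m)
  have hℓm : ¬ l ∣ m := fun h' => h (Dvd.dvd.mul_left h' N)
  have hτD := mem_decomposition_of_mem_inertia A hτ
  obtain ⟨c, a, b, hc, ha, hb, ha', hb', hfe⟩ :=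
    exists_normal_form N hl A hA ((f : (FN N)ˣ) : FN N) (f : (FN N)ˣ).ne_zero
  have ha0 : a ≠ 0 := rel_ne_zero ha'
  have hb0 : b ≠ 0 := rel_ne_zero hb'
  obtain ⟨hta, hta'⟩ := cong_inertia N A τ hτ a ha
  obtain ⟨htb, htb'⟩ := cong_inertia N A τ hτ b hb
  have hτa0 : galF N τ a ≠ 0 := (map_ne_zero _).2 ha0
  have hτb0 : galF N τ b ≠ 0 := (map_ne_zero _).2 hb0
  have hτc : τ c ≠ 0 := (map_ne_zero _).2 hc
  have key : Vm.mk (⟨galU N τ f / f, hf⟩ : DN N m) = 0 := by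
    refine mk_eq_zero_of_cong N (cc_gen N hl hℓN m hℓm) A hA _ (τ c / c) (div_ne_zero hτc hc)
      (galF N τ a * b) (a * galF N τ b) (IntA.mul hta hb) (IntA.mul ha htb)
      (not_smallA_mul ha htb ha' (rel_not_smallA_galF hτD hb')) ?_ ?_
    · have : (galF N τ a * b).1 - (a * galF N τ b).1 =
          ((galF N τ a).1 - a.1) * b.1 - a.1 * ((galF N τ b).1 - b.1) := by
        show (galF N τ a).1 * b.1 - a.1 * (galF N τ b).1 = _
        ring
      rw [this]
      exact SmallA.sub (SmallA.mul_right hta' hb) (SmallA.mul_left htb' ha)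
    · show ((galU N τ (f : (FN N)ˣ) / (f : (FN N)ˣ) : (FN N)ˣ) : FN N) = _
      rw [Units.val_div_eq_div_val]
      show galF N τ ((f : (FN N)ˣ) : FN N) / ((f : (FN N)ˣ) : FN N) = _
      rw [hfe, rel_galF_formula, map_div₀]
      have hc1 : algebraMap Kb (FN N) c ≠ 0 := by simpa using hc
      have hc2 : algebraMap Kb (FN N) (τ c) ≠ 0 := by simpa using hτc
      field_simp
  obtain ⟨w, hw⟩ := (Vm.mk_eq_zero_iff _).1 key
  exact ⟨w, hw⟩

theorem unr (N l m : ℕ) [NeZero N] [NeZero m] (hl : l.Prime) (h : ¬ l ∣ N * m)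
    (A : ValuationSubring Kb) (hA : A.LiesOverPrime l) (τ : GQ) (hτ : τ ∈ A.inertiaSubgroupIn ℚ)
    (y z : JZero N) (hy : τ • y = y) (hz : m • z = y) : τ • z = z := by
  have hFF := Fermat.Agent.S24.isFF1_FN N
  obtain ⟨o, ho⟩ := exists_invariant_place N
  obtain ⟨B, rfl⟩ := Pic0.mk_surjective z
  set D := RL.red hFF o y with hD
  have hDinv : aG N τ • D = D := by
    rw [hD, ← RL.red_smul hFF (aG N τ) (ho τ) y]
    congr 1
  let A₀ : Divisor.degZero (K := Kb) (F := FN N) :=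
    ⟨D - Divisor.degree D • RL.pt o, RL.sub_degree_smul_mem_degZero hFF o D⟩
  have hA₀ : Pic0.mk A₀ = y := RL.clsOf_red hFF o y
  have hAinv : aG N τ • (A₀ : Divisor Kb (FN N)) = A₀ := by
    show aG N τ • (D - Divisor.degree D • RL.pt o) = D - Divisor.degree D • RL.pt o
    rw [smul_sub, hDinv, smul_comm, SemilinearAut.smul_single, ho]
  have hzero : Pic0.mk (m • B - A₀) = 0 := by
    have : Pic0.mk (m • B - A₀) = m • Pic0.mk B - Pic0.mk A₀ := rfl
    rw [this, hz, hA₀, sub_self]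
  unfold Pic0.mk at hzero
  rw [QuotientAddGroup.eq_zero_iff, AddSubgroup.mem_addSubgroupOf] at hzero
  obtain ⟨f, hf0, hf⟩ := hzero
  have hford : ∀ v : Place Kb (FN N), v.ord (((Units.mk0 f hf0 : (FN N)ˣ)) : FN N) =
      m * (B : Divisor Kb (FN N)) v - (A₀ : Divisor Kb (FN N)) v := by
    intro v
    rw [Units.val_mk0, ← hf v]
    show ((m • (B : Divisor Kb (FN N)) - (A₀ : Divisor Kb (FN N))) : Divisor Kb (FN N)) v = _
    simp
  have hq := unr_ord_quot (f := Units.mk0 f hf0) _ _ τ hAinv hford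
  obtain ⟨w, hw⟩ := unr_pow N l m hl h A hA τ hτ (Units.mk0 f hf0) (fun v => by
    rw [hq v]; exact Dvd.intro _ rfl)
  rw [← sub_eq_zero, galois_smul_pic0_def, SemilinearAut.pic0_smul_mk]
  have : Pic0.mk (SemilinearAut.degZeroSMulHom (aG N τ) B) - Pic0.mk B =
      Pic0.mk (SemilinearAut.degZeroSMulHom (aG N τ) B - B) := rfl
  rw [this]
  refine kd_mk_eq_zero _ (w : FN N) w.ne_zero fun v => ?_
  have h1 := hq v
  rw [← hw, Units.val_pow_eq_pow_val, Fermat.Agent.S24.ord_pow] at h1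
  have h2 : v.ord (w : FN N) = (aG N τ • (B : Divisor Kb (FN N)) - B : Divisor Kb (FN N)) v :=
    mul_left_cancel₀ (Nat.cast_ne_zero.2 (NeZero.ne m)) h1
  rw [h2]
  rfl

end Fermat.Agent.S37
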