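import Fermat.Agent.S37.Top
import Fermat.Agent.S37.Unr
import Fermat.Agent.S37.Orb
import Fermat.Agent.S37.Frob
import Fermat.Agent.S37.BR.Main
import Fermat.Agent.S37.BR.Fin
import Fermat.Agent.DIV.Main

set_option autoImplicit false

/-!
# S37 / Glue : the top level modulo the finiteness of `J[p^∞]^{s^k}`   (owner: helper12)
-/

noncomputable section

namespace Fermat.Agent.S37

open AlgebraicCurve ModularCurve
open Fermat.Agent.S24 (Kb FN)
open Fermat.Agent.GES (GQ)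

theorem not_dvd_mul_pow {N p ℓ : ℕ} (hℓ : ℓ.Prime) (h : ¬ ℓ ∣ N * p) (n : ℕ) : ¬ ℓ ∣ N * p ^ n := by
  intro h1
  rcases (Nat.Prime.dvd_mul hℓ).1 h1 with h2 | h2
  · exact h (Dvd.dvd.mul_right h2 _)
  · exact h (Dvd.dvd.mul_left (hℓ.dvd_of_dvd_pow h2) _)

theorem ne_zero_of_not_dvd {N p ℓ : ℕ} (h : ¬ ℓ ∣ N * p) : p ≠ 0 := by
  rintro rfl
  exact h (by simp)

theorem frob_mem_normalizer (A : ValuationSubring Kb) {ℓ : ℕ} {s : GQ} (hs : A.IsFrobeniusAt s ℓ) :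
    s ∈ Subgroup.normalizer ((A.inertiaSubgroupIn ℚ : Subgroup GQ) : Set GQ) := by
  rw [Subgroup.mem_normalizer_iff]
  intro τ
  constructor
  · exact conj_mem_inertia A hs.mem_decompositionSubgroup
  · intro h
    have h1 := conj_mem_inertia A (inv_mem hs.mem_decompositionSubgroup) h
    have e : s⁻¹ * (s * τ * s⁻¹) * s⁻¹⁻¹ = τ := by group
    rwa [e] at h1

theorem glue (N p : ℕ) [NeZero N] (hcomm : ModularCurve.HeckeOperatorsCommuteBar N)
    (FIN : ∀ ℓ : ℕ, ℓ.Prime → ¬ ℓ ∣ N * p → ∀ k : ℕ, 0 < k → ∀ A : ValuationSubring Kb,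
      A.LiesOverPrime ℓ → ∀ s : GQ, A.IsFrobeniusAt s ℓ →
        {x : JZero N | (∃ n : ℕ, p ^ n • x = 0) ∧ s ^ k • x = x}.Finite) :
    letI := ModularCurve.heckeModuleBar N
    ∀ (_ : SMulCommClass (AlgebraicClosure ℚ ≃ₐ[ℚ] AlgebraicClosure ℚ) ModularCurve.HeckeAlg
      (ModularCurve.JZero N)),
      ModularCurve.SpecializationExists (K := ℚ) (L := AlgebraicClosure ℚ) N p
        (ModularCurve.JZero N) := by
  letI := ModularCurve.heckeModuleBar N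
  intro _ ℓ hℓ h A hA
  have hp : p ≠ 0 := ne_zero_of_not_dvd h
  obtain ⟨s, hs⟩ := exists_frob A hℓ hA
  refine Top.spec p (JZero N) ℓ hℓ A s (frob_mem_normalizer A hs)
    (fun σ hσ => frob_inv_mul_mem A hs hσ) ?_ ?_ ?_ ?_ ?_ ?_
  · intro n y
    exact DIV.divisible N (p ^ n) (pow_pos (Nat.pos_of_ne_zero hp) n) y
  · intro n
    haveI : NeZero (p ^ n) := ⟨pow_ne_zero n hp⟩
    exact BR.finite_tors N (p ^ n)
  · intro τ hτ n y z hy hz
    haveI : NeZero (p ^ n) := ⟨pow_ne_zero n hp⟩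
    exact unr N ℓ (p ^ n) hℓ (not_dvd_mul_pow hℓ h n) A hA τ hτ y z hy hz
  · exact exists_normal_fix N
  · intro k hk
    exact FIN ℓ hℓ h k hk A hA s hs
  · rintro x ⟨n, hn⟩
    haveI : NeZero (p ^ n) := ⟨pow_ne_zero n hp⟩
    have h1 := BR.frob_quad N (p ^ n) ℓ hℓ (not_dvd_mul_pow hℓ h n) A hA s hs x hn
    rw [heckeModuleBar_heckeGen_smul hcomm]
    exact h1

end Fermat.Agent.S37
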