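import Mathlib

set_option autoImplicit false

/-!
# S37 / Alg : the abstract splitting `J = J[p^∞] ⊕ C`   (Mathlib only)

`G` acts on the abelian group `J`; `I ◁ G`, `G = I · s^ℤ`.  Under the hypotheses (divisibility, finiteness of `J[p^n]`,
"division points are unramified", finite orbits, finiteness of the `p`-power torsion fixed by `s^k`) there is a subgroup `C`,
stable under `G` and under all `G`-equivariant endomorphisms, with `C ∩ J[p^∞] = 0` and `J = J[p^∞] + C`.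

`C = ⋃_U ⋂_n p^n J^U`, `U` running through the normal subgroups of finite index of `G`.
-/

namespace Fermat.Agent.S37.Alg

theorem gcd_dvd_pow (h p n : ℕ) (hh : 0 < h) : Nat.gcd h (p ^ n) ∣ p ^ h := by
  set d := Nat.gcd h (p ^ n) with hd
  have hd0 : d ≠ 0 := Nat.gcd_ne_zero_left hh.ne'
  have hdh : d ≤ h := Nat.le_of_dvd hh (Nat.gcd_dvd_left _ _)
  have hdp : d ∣ p ^ n := Nat.gcd_dvd_right _ _
  by_cases hp : p = 0
  · subst hp
    rw [zero_pow hh.ne']
    exact dvd_zero _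
  rw [← Nat.factorization_le_iff_dvd hd0 (pow_ne_zero _ hp), Nat.factorization_pow]
  intro r
  have h1 : d.factorization r ≤ (p ^ n).factorization r :=
    (Nat.factorization_le_iff_dvd hd0 (pow_ne_zero _ hp)).2 hdp r
  rw [Nat.factorization_pow] at h1
  simp only [Finsupp.smul_apply, smul_eq_mul] at h1 ⊢
  by_cases hr : p.factorization r = 0
  · rw [hr, mul_zero] at h1
    omega
  · have h2 : d.factorization r < d := Nat.factorization_lt r hd0
    calc d.factorization r ≤ h * 1 := by omega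
      _ ≤ h * p.factorization r := Nat.mul_le_mul_left _ (Nat.one_le_iff_ne_zero.2 hr)

variable {J : Type*} [AddCommGroup J]

theorem pow_smul_mem (R : AddSubgroup J) {h p n : ℕ} (hh : 0 < h) {c : J} (h1 : h • c ∈ R)
    (h2 : p ^ n • c ∈ R) : p ^ h • c ∈ R := by
  obtain ⟨e, he⟩ := gcd_dvd_pow h p n hh
  have h3 : (Nat.gcd h (p ^ n)) • c ∈ R := by
    have hb := Nat.gcd_eq_gcd_ab h (p ^ n)
    have h4 : ((Nat.gcd h (p ^ n) : ℕ) : ℤ) • c ∈ R := by
      rw [hb, add_smul, mul_comm (h : ℤ), mul_comm ((p ^ n : ℕ) : ℤ), mul_smul, mul_smul,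
        natCast_zsmul, natCast_zsmul]
      exact R.add_mem (R.zsmul_mem h1 _) (R.zsmul_mem h2 _)
    rwa [natCast_zsmul] at h4
  rw [he, mul_comm, mul_smul]
  exact R.nsmul_mem h3 _

theorem card_ker_smul_mem_range {M : Type*} [AddCommGroup M] [Finite M] (δ : M →+ M) (c : M) :
    Nat.card δ.ker • c ∈ δ.range := by
  have h1 : Nat.card δ.range * δ.range.index = Nat.card M := δ.range.card_mul_index
  have h2 : Nat.card δ.ker * δ.ker.index = Nat.card M := δ.ker.card_mul_index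
  have h3 : δ.ker.index = Nat.card δ.range := AddSubgroup.index_ker δ
  have h4 : δ.range.index = Nat.card δ.ker := by
    have hpos : 0 < Nat.card δ.range := Nat.card_pos
    rw [h3, ← h1, mul_comm] at h2
    exact (Nat.eq_of_mul_eq_mul_left hpos h2).symm
  rw [← h4]
  exact AddSubgroup.nsmul_index_mem _ c

variable {G : Type*} [Group G] [DistribMulAction G J]

/-- the points fixed by `U`. -/
def fixU (U : Subgroup G) : AddSubgroup J where
  carrier := {z | ∀ u ∈ U, u • z = z}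
  zero_mem' := fun u _ => smul_zero u
  add_mem' := fun {a b} ha hb u hu => by rw [smul_add, ha u hu, hb u hu]
  neg_mem' := fun {a} ha u hu => by rw [smul_neg, ha u hu]

theorem mem_fixU {U : Subgroup G} {z : J} : z ∈ fixU (J := J) U ↔ ∀ u ∈ U, u • z = z := Iff.rfl

theorem fixU_mono {U U' : Subgroup G} (h : U' ≤ U) : fixU (J := J) U ≤ fixU U' :=
  fun _ hz u hu => hz u (h hu)

/-- `⋂_n p^n J^U`. -/
def divU (p : ℕ) (U : Subgroup G) : AddSubgroup J where
  carrier := {y | ∀ n : ℕ, ∃ z ∈ fixU (J := J) U, p ^ n • z = y}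
  zero_mem' := fun _ => ⟨0, zero_mem _, smul_zero _⟩
  add_mem' := fun {a b} ha hb n => by
    obtain ⟨z, hz, h1⟩ := ha n
    obtain ⟨z', hz', h2⟩ := hb n
    exact ⟨z + z', add_mem hz hz', by rw [smul_add, h1, h2]⟩
  neg_mem' := fun {a} ha n => by
    obtain ⟨z, hz, h1⟩ := ha n
    exact ⟨-z, neg_mem hz, by rw [smul_neg, h1]⟩

theorem divU_mono (p : ℕ) {U U' : Subgroup G} (h : U' ≤ U) : divU (J := J) p U ≤ divU p U' :=
  fun _ hy n => by
    obtain ⟨z, hz, h1⟩ := hy n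
    exact ⟨z, fixU_mono h hz, h1⟩

variable (G) in
/-- the complement. -/
def Cp (p : ℕ) : AddSubgroup J where
  carrier := {y | ∃ U : Subgroup G, U.Normal ∧ U.FiniteIndex ∧ y ∈ divU (J := J) p U}
  zero_mem' := ⟨⊤, inferInstance, inferInstance, zero_mem _⟩
  add_mem' := by
    rintro a b ⟨U, hU1, hU2, ha⟩ ⟨U', hU1', hU2', hb⟩
    exact ⟨U ⊓ U', inferInstance, inferInstance,
      add_mem (divU_mono p inf_le_left ha) (divU_mono p inf_le_right hb)⟩
  neg_mem' := by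
    rintro a ⟨U, hU1, hU2, ha⟩
    exact ⟨U, hU1, hU2, neg_mem ha⟩

theorem smul_mem_fixU {U : Subgroup G} [hU : U.Normal] (g : G) {z : J} (hz : z ∈ fixU (J := J) U) :
    g • z ∈ fixU (J := J) U := by
  intro u hu
  have h1 : g⁻¹ * u * g ∈ U := hU.conj_mem' u hu g
  have h2 := hz _ h1
  calc u • g • z = g • (g⁻¹ * u * g) • z := by
        rw [smul_smul, smul_smul]; congr 1; group
    _ = g • z := by rw [h2]

theorem smul_mem_Cp (p : ℕ) (g : G) {y : J} (hy : y ∈ Cp (J := J) G p) : g • y ∈ Cp (J := J) G p := by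
  obtain ⟨U, hU1, hU2, hy⟩ := hy
  refine ⟨U, hU1, hU2, fun n => ?_⟩
  obtain ⟨z, hz, h1⟩ := hy n
  exact ⟨g • z, smul_mem_fixU g hz, by rw [← h1, smul_comm]⟩

theorem map_mem_Cp (p : ℕ) (φ : J →+ J) (hφ : ∀ (g : G) (y : J), φ (g • y) = g • φ y) {y : J}
    (hy : y ∈ Cp (J := J) G p) : φ y ∈ Cp (J := J) G p := by
  obtain ⟨U, hU1, hU2, hy⟩ := hy
  refine ⟨U, hU1, hU2, fun n => ?_⟩
  obtain ⟨z, hz, h1⟩ := hy n
  exact ⟨φ z, fun u hu => by rw [← hφ, hz u hu], by rw [← h1, map_nsmul]⟩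

theorem zpow_smul_eq {g : G} {x : J} (h : g • x = x) (j : ℤ) : g ^ j • x = x := by
  have h1 : g ∈ MulAction.stabilizer G x := h
  exact (MulAction.stabilizer G x).zpow_mem h1 j

/-- the structure of a normal subgroup of finite index of `G = I · s^ℤ`. -/
theorem exists_gen (I : Subgroup G) [I.Normal] (s : G) (hgen : ∀ g : G, ∃ j : ℤ, (s ^ j)⁻¹ * g ∈ I)
    (U : Subgroup G) [U.Normal] [U.FiniteIndex] :
    ∃ σ₀ ∈ U, ∃ k : ℕ, 0 < k ∧ (s ^ k)⁻¹ * σ₀ ∈ I ∧ ∀ u ∈ U, ∃ j : ℤ, (σ₀ ^ j)⁻¹ * u ∈ I := by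
  classical
  have hex : ∃ k : ℕ, 0 < k ∧ ∃ u ∈ U, (s ^ k)⁻¹ * u ∈ I :=
    ⟨U.index, Nat.pos_of_ne_zero Subgroup.FiniteIndex.index_ne_zero, s ^ U.index,
      Subgroup.pow_index_mem U s, by rw [inv_mul_cancel]; exact I.one_mem⟩
  obtain ⟨hk0, σ₀, hσU, hσ⟩ := Nat.find_spec hex
  set k := Nat.find hex with hk
  refine ⟨σ₀, hσU, k, hk0, hσ, ?_⟩
  intro u hu
  obtain ⟨j, hj⟩ := hgen u
  -- work in the quotient
  have e1 : (QuotientGroup.mk σ₀ : G ⧸ I) = (QuotientGroup.mk s) ^ k := by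
    rw [← QuotientGroup.mk_pow]; exact (QuotientGroup.eq.2 hσ).symm
  have e2 : (QuotientGroup.mk u : G ⧸ I) = (QuotientGroup.mk s) ^ j := by
    rw [← QuotientGroup.mk_zpow]; exact (QuotientGroup.eq.2 hj).symm
  have hkz : (0 : ℤ) < k := by exact_mod_cast hk0
  refine ⟨j / k, ?_⟩
  set r := j % k with hr
  have hr0 : 0 ≤ r := Int.emod_nonneg _ hkz.ne'
  have hrk : r < k := Int.emod_lt_of_pos _ hkz
  have e3 : (QuotientGroup.mk ((σ₀ ^ (j / k))⁻¹ * u) : G ⧸ I) = (QuotientGroup.mk s) ^ r := by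
    rw [QuotientGroup.mk_mul, QuotientGroup.mk_inv, QuotientGroup.mk_zpow, e1, e2, ← zpow_natCast,
      ← zpow_mul, ← zpow_neg, ← zpow_add]
    congr 1
    have := Int.emod_add_mul_ediv j k
    rw [hr]; linarith
  by_cases hr1 : r = 0
  · rw [hr1, zpow_zero] at e3
    exact (QuotientGroup.eq_one_iff _).1 e3
  · exfalso
    have hpos : 0 < r.toNat := by omega
    have hlt : r.toNat < k := by omega
    apply Nat.find_min hex hlt
    refine ⟨hpos, (σ₀ ^ (j / k))⁻¹ * u, U.mul_mem (U.inv_mem (U.zpow_mem hσU _)) hu, ?_⟩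
    apply QuotientGroup.eq.1
    rw [e3, QuotientGroup.mk_pow, ← zpow_natCast, Int.toNat_of_nonneg hr0]

/-- the `p`-power torsion fixed by `s ^ k`. -/
def TK (s : G) (p k : ℕ) : AddSubgroup J where
  carrier := {x | (∃ n : ℕ, p ^ n • x = 0) ∧ s ^ k • x = x}
  zero_mem' := ⟨⟨0, smul_zero _⟩, smul_zero _⟩
  add_mem' := by
    rintro a b ⟨⟨n, hn⟩, ha⟩ ⟨⟨m, hm⟩, hb⟩
    refine ⟨⟨n + m, ?_⟩, by rw [smul_add, ha, hb]⟩
    rw [smul_add, pow_add, mul_comm, mul_smul, hn, mul_comm, mul_smul, hm, smul_zero, smul_zero,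
      add_zero]
  neg_mem' := by
    rintro a ⟨⟨n, hn⟩, ha⟩
    exact ⟨⟨n, by rw [smul_neg, hn, neg_zero]⟩, by rw [smul_neg, ha]⟩

/-- `J[p^n]`. -/
def Tn (J : Type*) [AddCommGroup J] (p n : ℕ) : AddSubgroup J where
  carrier := {x | p ^ n • x = 0}
  zero_mem' := smul_zero _
  add_mem' := fun {a b} ha hb => by
    have ha' : p ^ n • a = 0 := ha
    have hb' : p ^ n • b = 0 := hb
    show p ^ n • (a + b) = 0
    rw [smul_add, ha', hb', add_zero]
  neg_mem' := fun {a} ha => by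
    have ha' : p ^ n • a = 0 := ha
    show p ^ n • (-a) = 0
    rw [smul_neg, ha', neg_zero]

theorem pow_card_TK_smul (s : G) (p k : ℕ) (hF : (TK (J := J) s p k : Set J).Finite) {x : J}
    (hx : x ∈ TK (J := J) s p k) : p ^ Nat.card (TK (J := J) s p k) • x = 0 := by
  haveI : Finite (TK (J := J) s p k) := hF
  obtain ⟨n, hn⟩ := hx.1
  have h1 : Nat.card (TK (J := J) s p k) • x = 0 := by
    have h0 := card_nsmul_eq_zero' (G := TK (J := J) s p k) (x := ⟨x, hx⟩)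
    have h0' := congrArg Subtype.val h0
    rwa [AddSubgroup.coe_nsmul] at h0'
  have := pow_smul_mem (⊥ : AddSubgroup J) (h := Nat.card (TK (J := J) s p k)) (p := p) (n := n)
    Nat.card_pos (c := x) (by rw [h1]; exact zero_mem _) (by rw [hn]; exact zero_mem _)
  simpa using this

/-- step (B). -/
theorem exists_cobound (s : G) (p k n : ℕ) (hF : (TK (J := J) s p k : Set J).Finite)
    (hfin : (Tn J p n : Set J).Finite) {c : J} (hc : p ^ n • c = 0) :
    ∃ w : J, p ^ n • w = 0 ∧ p ^ Nat.card (TK (J := J) s p k) • c = s ^ k • w - w := by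
  haveI : Finite (TK (J := J) s p k) := hF
  haveI : Finite (Tn J p n) := hfin
  let δ : Tn J p n →+ Tn J p n :=
    { toFun := fun x => ⟨s ^ k • (x : J) - x, by
        have hx : p ^ n • (x : J) = 0 := x.2
        show p ^ n • (s ^ k • (x : J) - x) = 0
        rw [smul_sub, smul_comm, hx, smul_zero, sub_zero]⟩
      map_zero' := by
        apply Subtype.ext
        simp
      map_add' := fun a b => by
        apply Subtype.ext
        simp only [AddSubgroup.coe_add, smul_add]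
        abel }
  have hle : Nat.card δ.ker ≤ Nat.card (TK (J := J) s p k) := by
    refine Nat.card_le_card_of_injective
      (fun x : δ.ker => (⟨((x : Tn J p n) : J), ⟨⟨n, (x : Tn J p n).2⟩, ?_⟩⟩ : TK (J := J) s p k)) ?_
    · have h1 : δ (x : Tn J p n) = 0 := x.2
      have h2 := congrArg Subtype.val h1
      exact sub_eq_zero.1 h2
    · intro a b hab
      apply Subtype.ext
      apply Subtype.ext
      exact congrArg (fun x : TK (J := J) s p k => (x : J)) hab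
  have h1 : Nat.card δ.ker • (⟨c, hc⟩ : Tn J p n) ∈ δ.range := card_ker_smul_mem_range δ _
  have h2 : p ^ n • (⟨c, hc⟩ : Tn J p n) ∈ δ.range := by
    have : p ^ n • (⟨c, hc⟩ : Tn J p n) = 0 := by
      apply Subtype.ext
      simpa using hc
    rw [this]; exact zero_mem _
  have h3 : p ^ Nat.card δ.ker • (⟨c, hc⟩ : Tn J p n) ∈ δ.range :=
    pow_smul_mem δ.range Nat.card_pos h1 h2
  have h4 : p ^ Nat.card (TK (J := J) s p k) • (⟨c, hc⟩ : Tn J p n) ∈ δ.range := by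
    obtain ⟨e, he⟩ := Nat.exists_eq_add_of_le hle
    rw [he, pow_add, mul_comm, mul_smul]
    exact δ.range.nsmul_mem h3 _
  obtain ⟨w, hw⟩ := h4
  refine ⟨w, w.2, ?_⟩
  have h5 := congrArg Subtype.val hw
  rw [AddSubgroup.coe_nsmul] at h5
  exact h5.symm

section main

variable (I : Subgroup G) [I.Normal] (s : G) (p : ℕ)

/-- The hypotheses of the splitting theorem. -/
structure Hyp : Prop where
  gen : ∀ g : G, ∃ j : ℤ, (s ^ j)⁻¹ * g ∈ I
  div : ∀ (n : ℕ) (y : J), ∃ z : J, p ^ n • z = y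
  fin : ∀ n : ℕ, (Tn J p n : Set J).Finite
  unr : ∀ τ ∈ I, ∀ (n : ℕ) (y z : J), τ • y = y → p ^ n • z = y → τ • z = z
  orb : ∀ y : J, ∃ U : Subgroup G, U.Normal ∧ U.FiniteIndex ∧ y ∈ fixU (J := J) U
  FIN : ∀ k : ℕ, 0 < k → (TK (J := J) s p k : Set J).Finite

variable {I s p}

theorem Hyp.inertia_tors (H : Hyp (J := J) I s p) {τ : G} (hτ : τ ∈ I) {n : ℕ} {w : J}
    (hw : p ^ n • w = 0) : τ • w = w :=
  H.unr τ hτ n 0 w (smul_zero _) hw

/-- step (C). -/
theorem Hyp.stepC (H : Hyp (J := J) I s p) (U : Subgroup G) [U.Normal] [U.FiniteIndex] :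
    ∃ k : ℕ, 0 < k ∧ (∀ x ∈ fixU (J := J) U, (∃ n : ℕ, p ^ n • x = 0) → x ∈ TK (J := J) s p k) ∧
      ∀ y ∈ fixU (J := J) U, ∀ n : ℕ, ∃ z ∈ fixU (J := J) U,
        p ^ n • z = p ^ Nat.card (TK (J := J) s p k) • y := by
  obtain ⟨σ₀, hσU, k, hk, hσ, hU⟩ := exists_gen I s H.gen U
  have key : ∀ {n : ℕ} {w : J}, p ^ n • w = 0 → σ₀ • w = s ^ k • w := by
    intro n w hw
    have h1 := H.inertia_tors hσ hw
    calc σ₀ • w = s ^ k • ((s ^ k)⁻¹ * σ₀) • w := by rw [smul_smul, mul_inv_cancel_left]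
      _ = s ^ k • w := by rw [h1]
  refine ⟨k, hk, ?_, ?_⟩
  · rintro x hx ⟨n, hn⟩
    exact ⟨⟨n, hn⟩, by rw [← key hn]; exact hx σ₀ hσU⟩
  · intro y hy n
    obtain ⟨z, hz⟩ := H.div n y
    have hc : p ^ n • (σ₀ • z - z) = 0 := by
      rw [smul_sub, smul_comm, hz, hy σ₀ hσU, sub_self]
    obtain ⟨w, hw, hcw⟩ := exists_cobound s p k n (H.FIN k hk) (H.fin n) hc
    set h := Nat.card (TK (J := J) s p k) with hh
    refine ⟨p ^ h • z - w, ?_, ?_⟩
    · have hσz : σ₀ • (p ^ h • z - w) = p ^ h • z - w := by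
        rw [smul_sub, key hw, smul_comm]
        have : p ^ h • σ₀ • z = p ^ h • z + (s ^ k • w - w) := by
          rw [← hcw, smul_sub]; abel
        rw [this]; abel
      intro u hu
      obtain ⟨j, hj⟩ := hU u hu
      have hjU : (σ₀ ^ j)⁻¹ * u ∈ U := U.mul_mem (U.inv_mem (U.zpow_mem hσU _)) hu
      have h1 : ((σ₀ ^ j)⁻¹ * u) • z = z := H.unr _ hj n y z (hy _ hjU) hz
      have h2 : ((σ₀ ^ j)⁻¹ * u) • w = w := H.inertia_tors hj hw
      calc u • (p ^ h • z - w) = σ₀ ^ j • ((σ₀ ^ j)⁻¹ * u) • (p ^ h • z - w) := by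
            rw [smul_smul, mul_inv_cancel_left]
        _ = σ₀ ^ j • (p ^ h • z - w) := by rw [smul_sub, smul_comm, h1, h2]
        _ = p ^ h • z - w := zpow_smul_eq hσz j
    · rw [smul_sub, hw, sub_zero, smul_comm, hz]

/-- step (E): `C ∩ J[p^∞] = 0`. -/
theorem Hyp.Cp_tors (H : Hyp (J := J) I s p) {x : J} (hx : x ∈ Cp (J := J) G p) {m : ℕ}
    (hm : p ^ m • x = 0) : x = 0 := by
  obtain ⟨U, hU1, hU2, hx⟩ := hx
  obtain ⟨k, hk, h1, -⟩ := H.stepC U
  obtain ⟨z, hz, hzx⟩ := hx (Nat.card (TK (J := J) s p k))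
  have h2 : z ∈ TK (J := J) s p k :=
    h1 z hz ⟨Nat.card (TK (J := J) s p k) + m, by rw [pow_add, mul_comm, mul_smul, hzx, hm]⟩
  rw [← hzx]
  exact pow_card_TK_smul s p k (H.FIN k hk) h2

/-- step (D)+(F): `J = J[p^∞] + C`. -/
theorem Hyp.exists_decomp (H : Hyp (J := J) I s p) (y : J) :
    ∃ w : J, (∃ n : ℕ, p ^ n • w = 0) ∧ y - w ∈ Cp (J := J) G p := by
  obtain ⟨U, hU1, hU2, hy⟩ := H.orb y
  obtain ⟨k, hk, -, h2⟩ := H.stepC U
  set h := Nat.card (TK (J := J) s p k) with hh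
  choose z hz hzy using fun n : ℕ => h2 y hy (n + h)
  haveI : Finite (Tn J p h) := H.fin h
  let t : ℕ → Tn J p h := fun n => ⟨y - p ^ n • z n, by
    show p ^ h • (y - p ^ n • z n) = 0
    rw [smul_sub, ← mul_smul, mul_comm, ← pow_add, hzy, sub_self]⟩
  obtain ⟨w, hw⟩ := Finite.exists_infinite_fiber t
  refine ⟨w, ⟨h, w.2⟩, U, hU1, hU2, fun n => ?_⟩
  have hinf : (t ⁻¹' {w}).Infinite := Set.infinite_coe_iff.1 hw
  obtain ⟨m, hm, hnm⟩ := hinf.exists_gt n
  have hm' : y - p ^ m • z m = w := congrArg Subtype.val hm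
  obtain ⟨e, he⟩ := Nat.exists_eq_add_of_le hnm.le
  refine ⟨p ^ e • z m, (fixU U).nsmul_mem (hz m) _, ?_⟩
  rw [← mul_smul, ← pow_add, ← he, ← hm']
  abel

end main

end Fermat.Agent.S37.Alg
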