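import Fermat.Agent.S37.Alg
import Fermat.Prelude.Def_HeckeGalois_EichlerShimura

set_option autoImplicit false

/-!
# S37 / Top : the abstract top level   (owner: helper12)

From the hypotheses of `Alg.Hyp` (for the group `Γ = I · s^ℤ`) we construct the "specialisation" `J → J ⧸ C`.
-/

noncomputable section

namespace Fermat.Agent.S37.Top

open ModularCurve Fermat.Agent.S37.Alg

section group

variable {GG : Type*} [Group GG]

/-- `Γ = s^ℤ · I₀`. -/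
def Gam (I₀ : Subgroup GG) (s : GG) (hs : s ∈ Subgroup.normalizer (I₀ : Set GG)) : Subgroup GG where
  carrier := {g | ∃ j : ℤ, (s ^ j)⁻¹ * g ∈ I₀}
  one_mem' := ⟨0, by simp [I₀.one_mem]⟩
  mul_mem' := by
    rintro a b ⟨j, hj⟩ ⟨k, hk⟩
    refine ⟨j + k, ?_⟩
    have h1 : (s ^ k)⁻¹ * ((s ^ j)⁻¹ * a) * ((s ^ k)⁻¹)⁻¹ ∈ I₀ :=
      (Subgroup.mem_normalizer_iff.1 (inv_mem (zpow_mem hs k)) _).1 hj
    have h2 := I₀.mul_mem h1 hk
    have e : (s ^ (j + k))⁻¹ * (a * b) =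
        (s ^ k)⁻¹ * ((s ^ j)⁻¹ * a) * ((s ^ k)⁻¹)⁻¹ * ((s ^ k)⁻¹ * b) := by
      rw [zpow_add]; group
    rw [e]
    exact h2
  inv_mem' := by
    rintro a ⟨j, hj⟩
    refine ⟨-j, ?_⟩
    have h1 : s ^ j * ((s ^ j)⁻¹ * a)⁻¹ * (s ^ j)⁻¹ ∈ I₀ :=
      (Subgroup.mem_normalizer_iff.1 (zpow_mem hs j) _).1 (inv_mem hj)
    have e : (s ^ (-j))⁻¹ * a⁻¹ = s ^ j * ((s ^ j)⁻¹ * a)⁻¹ * (s ^ j)⁻¹ := by
      group
    rw [e]
    exact h1

variable (I₀ : Subgroup GG) (s : GG) (hs : s ∈ Subgroup.normalizer (I₀ : Set GG))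

theorem mem_Gam {g : GG} : g ∈ Gam I₀ s hs ↔ ∃ j : ℤ, (s ^ j)⁻¹ * g ∈ I₀ := Iff.rfl

theorem le_Gam : I₀ ≤ Gam I₀ s hs := fun g hg => ⟨0, by simpa using hg⟩

theorem self_mem_Gam : s ∈ Gam I₀ s hs := ⟨1, by simp [I₀.one_mem]⟩

theorem Gam_le_normalizer : Gam I₀ s hs ≤ Subgroup.normalizer (I₀ : Set GG) := by
  rintro g ⟨j, hj⟩
  have h1 := mul_mem (zpow_mem hs j) (Subgroup.le_normalizer hj)
  rwa [mul_inv_cancel_left] at h1

instance normal_I : (I₀.subgroupOf (Gam I₀ s hs)).Normal :=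
  (Subgroup.normal_subgroupOf_iff_le_normalizer (le_Gam I₀ s hs)).2 (Gam_le_normalizer I₀ s hs)

end group

section main

variable {GG : Type*} [Group GG] {J : Type*} [AddCommGroup J] [DistribMulAction GG J]
variable (I₀ : Subgroup GG) (s : GG) (hs : s ∈ Subgroup.normalizer (I₀ : Set GG)) (p : ℕ)

theorem hyp
    (div : ∀ (n : ℕ) (y : J), ∃ z : J, p ^ n • z = y)
    (fin : ∀ n : ℕ, {x : J | p ^ n • x = 0}.Finite)
    (unr : ∀ τ ∈ I₀, ∀ (n : ℕ) (y z : J), τ • y = y → p ^ n • z = y → τ • z = z)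
    (orb : ∀ y : J, ∃ U : Subgroup GG, U.Normal ∧ U.FiniteIndex ∧ ∀ σ ∈ U, σ • y = y)
    (FIN : ∀ k : ℕ, 0 < k → {x : J | (∃ n : ℕ, p ^ n • x = 0) ∧ s ^ k • x = x}.Finite) :
    Hyp (J := J) (I₀.subgroupOf (Gam I₀ s hs)) (⟨s, self_mem_Gam I₀ s hs⟩ : Gam I₀ s hs) p where
  gen := by
    rintro ⟨g, j, hj⟩
    exact ⟨j, by
      rw [Subgroup.mem_subgroupOf]
      simpa using hj⟩
  div := div
  fin := fin
  unr := fun τ hτ n y z hy hz => unr τ.1 (Subgroup.mem_subgroupOf.1 hτ) n y z hy hz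
  orb := fun y => by
    obtain ⟨U, hU1, hU2, hU⟩ := orb y
    exact ⟨U.subgroupOf _, inferInstance, inferInstance,
      fun u hu => hU u.1 (Subgroup.mem_subgroupOf.1 hu)⟩
  FIN := fun k hk => FIN k hk

end main

section spec

variable {K L : Type*} [Field K] [Field L] [Algebra K L]
variable (p : ℕ) (J : Type) [AddCommGroup J] [Module HeckeAlg J]
  [DistribMulAction (L ≃ₐ[K] L) J] [SMulCommClass (L ≃ₐ[K] L) HeckeAlg J]

/-- the complement as a Hecke submodule. -/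
def CpSub (Γ : Subgroup (L ≃ₐ[K] L)) : Submodule HeckeAlg J :=
  { Cp (J := J) Γ p with
    smul_mem' := fun T _ hy =>
      map_mem_Cp (G := Γ) p (DistribSMul.toAddMonoidHom J T)
        (fun g y => (smul_comm (g : L ≃ₐ[K] L) T y).symm) hy }

theorem mem_CpSub {Γ : Subgroup (L ≃ₐ[K] L)} {y : J} :
    y ∈ CpSub p J Γ ↔ y ∈ Cp (J := J) Γ p := Iff.rfl

/-- the action of `s` as a Hecke-linear map. -/
def actLin (s : L ≃ₐ[K] L) : J →ₗ[HeckeAlg] J where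
  toFun := fun x => s • x
  map_add' := smul_add s
  map_smul' := fun T x => smul_comm s T x

theorem spec (ℓ : ℕ) (hℓ : ℓ.Prime) (A : ValuationSubring L) (s : L ≃ₐ[K] L)
    (hs : s ∈ Subgroup.normalizer ((A.inertiaSubgroupIn K : Subgroup (L ≃ₐ[K] L)) : Set (L ≃ₐ[K] L)))
    (hfrob : ∀ σ : L ≃ₐ[K] L, A.IsFrobeniusAt σ ℓ → s⁻¹ * σ ∈ A.inertiaSubgroupIn K)
    (div : ∀ (n : ℕ) (y : J), ∃ z : J, p ^ n • z = y)
    (fin : ∀ n : ℕ, {x : J | p ^ n • x = 0}.Finite)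
    (unr : ∀ τ ∈ A.inertiaSubgroupIn K, ∀ (n : ℕ) (y z : J), τ • y = y → p ^ n • z = y → τ • z = z)
    (orb : ∀ y : J, ∃ U : Subgroup (L ≃ₐ[K] L), U.Normal ∧ U.FiniteIndex ∧ ∀ σ ∈ U, σ • y = y)
    (FIN : ∀ k : ℕ, 0 < k → {x : J | (∃ n : ℕ, p ^ n • x = 0) ∧ s ^ k • x = x}.Finite)
    (quad : ∀ x : J, (∃ n : ℕ, p ^ n • x = 0) →
      s • s • x - heckeGen ⟨ℓ, hℓ⟩ • (s • x) + ℓ • x = 0) :
    ∃ (J' : Type) (_ : AddCommGroup J') (_ : Module HeckeAlg J') (sp : J →+ J') (F : J' →+ J'),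
      IsSpecialization (K := K) p J J' A ℓ sp F ∧ SpecialFibreRelation J' ℓ hℓ F := by
  set I₀ := A.inertiaSubgroupIn K with hI₀
  have H := hyp (J := J) I₀ s hs p div fin unr orb FIN
  set Γ := Gam I₀ s hs with hΓ
  set C := CpSub p J Γ with hC
  have hsC : C ≤ C.comap (actLin J s) := fun y hy =>
    smul_mem_Cp (G := Γ) p (⟨s, self_mem_Gam I₀ s hs⟩ : Γ) hy
  have hdec : ∀ x : J, ∃ w : J, (∃ n : ℕ, p ^ n • w = 0) ∧ C.mkQ x = C.mkQ w := by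
    intro x
    obtain ⟨w, hw, hxw⟩ := H.exists_decomp x
    exact ⟨w, hw, (Submodule.Quotient.eq C).2 hxw⟩
  have hF : ∀ x : J, C.mapQ C (actLin J s) hsC (C.mkQ x) = C.mkQ (s • x) := fun x => rfl
  have hin : ∀ σ ∈ I₀, ∀ x : J, C.mkQ (σ • x) = C.mkQ x := by
    intro σ hσ x
    obtain ⟨w, ⟨n, hw⟩, hxw⟩ := H.exists_decomp x
    have hσw : σ • w = w :=
      H.inertia_tors (τ := (⟨σ, le_Gam I₀ s hs hσ⟩ : Γ)) (Subgroup.mem_subgroupOf.2 hσ) hw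
    have h1 : σ • (x - w) ∈ C := smul_mem_Cp (G := Γ) p (⟨σ, le_Gam I₀ s hs hσ⟩ : Γ) hxw
    refine (Submodule.Quotient.eq C).2 ?_
    have e : σ • x - x = σ • (x - w) - (x - w) := by
      rw [smul_sub, hσw]; abel
    rw [e]
    exact C.sub_mem h1 hxw
  refine ⟨J ⧸ C, inferInstance, inferInstance, C.mkQ.toAddMonoidHom,
    (C.mapQ C (actLin J s) hsC).toAddMonoidHom, ⟨?_, ?_, ?_, ?_⟩, ?_⟩
  · intro T x
    exact map_smul C.mkQ T x
  · exact hin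
  · intro σ hσ x
    have h1 := hin _ (hfrob σ hσ) x
    show C.mkQ (σ • x) = C.mapQ C (actLin J s) hsC (C.mkQ x)
    rw [← h1, hF, smul_smul, mul_inv_cancel_left]
  · rintro x ⟨n, hn⟩ hx
    have hx' : x ∈ C := (Submodule.Quotient.mk_eq_zero C).1 hx
    exact H.Cp_tors hx' hn
  · intro y
    obtain ⟨x, rfl⟩ := C.mkQ_surjective y
    obtain ⟨w, hw, hxw⟩ := hdec x
    show C.mapQ C (actLin J s) hsC (C.mapQ C (actLin J s) hsC (C.mkQ x)) -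
      heckeGen ⟨ℓ, hℓ⟩ • C.mapQ C (actLin J s) hsC (C.mkQ x) + ℓ • C.mkQ x = 0
    rw [hxw, hF, hF, ← map_smul, ← map_nsmul, ← map_sub, ← map_add, quad w hw, map_zero]

end spec

end Fermat.Agent.S37.Top
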